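import Fermat.Agent.S59.TW.H564.GenNil
import Fermat.Agent.S59.TW.H564.ParPkg
import Fermat.Agent.S59.TW.H564.KQArith
import Fermat.Agent.S59.TW.H658.ModQRing

/-!
# Row S59 / row 37, cell TW, layer 3 (AUT), leaf MODQ (helper564 + helper658)

`modQ : Aut.ModQStatement` (VERBATIM, `TW/Aut/Spec.lean`): the Hecke ring `T_Q` of the package
`P_Q` acts on the localisation `V ⊆ X_{K_Q}(𝒪)` through the twisted operators `⟨ℓ⟩^h T_ℓ`,
`h = (p^(∑ v_p(q_j - 1)) - 1) / 2`.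

Assembly of
* PAR (`H564.isParabolic_of_pkg`): `V` consists of parabolic classes
  [RFD `H155` + non-Eisenstein prime `H424` + CUSP-LOC `H324`];
* MODQ-RING (`H658.exists_heckeAction_isQPart`): the ring homomorphism
  `Ψ : heckeAlgebra N' 2 (Smin ∪ Q) →+* End_𝒪 V`, `T_ℓ ↦ ⟨ℓ⟩^h T_ℓ`
  [Eichler–Shimura for `K_Q` + nebentypus decomposition + twisting `H564.twistL`];
* GENNIL + LOCACT (`H564.exists_locAction`): `Ψ` extends to the localisation
  `heckeLocal N' (Smin ∪ Q) 𝒪 θ = P_Q.T`.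
-/

set_option autoImplicit false
set_option linter.unusedSectionVars false
set_option linter.style.haveILetI false
set_option maxSynthPendingDepth 3

open Polynomial IsLocalRing CongruenceSubgroup
open scoped MatrixGroups

namespace Fermat.Agent.S59.TW.Aut.H564

open Fermat.Agent.S59.Arch Fermat.Agent.S59.TW.H959 Fermat.Agent.S59.TW.H653
  Fermat.Agent.S59.TW.Aut

/-- **MODQ.** -/
theorem modQ : ModQStatement := by
  intro p _ 𝒪 _ _ _ _ _ _ ρbar Smin hRH t _ _ P₀ n r qv hq _ PQ res _ α _ V hV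
  have hp : p.Prime := Fact.out
  obtain ⟨hqi, hq', -⟩ := hq
  have hq2 : ∀ i, (qv i).Prime ∧ qv i ∉ Smin := fun i => ⟨(hq' i).1, (hq' i).2.1⟩
  have hNS : ∀ q : ℕ, q.Prime →
      q ∣ wilesLevel p t Smin (Smin ∪ Finset.univ.image qv) →
      q ∈ ((Smin ∪ Finset.univ.image qv : Finset ℕ) : Set ℕ) := fun q hqp hqd =>
    Fermat.Agent.S59.TW.H658.mem_of_dvd_wilesLevel_union p t Smin qv hRH.hpSmin hRH.hSmin hqi hq2
      hqp hqd
  haveI : NeZero (bLevel (wilesLevel p t Smin Smin) qv) :=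
    ⟨Fermat.Agent.S59.TW.H658.bLevel_ne_zero p t Smin qv hRH.hSmin fun i => (hq2 i).1⟩
  have hMN : bLevel (wilesLevel p t Smin Smin) qv ∣
      wilesLevel p t Smin (Smin ∪ Finset.univ.image qv) :=
    (Dvd.intro _ rfl).trans
      (Fermat.Agent.S59.TW.H658.bLevel_mul_prod_dvd p t Smin qv hqi fun i => (hq2 i).2)
  have hpSig : p ∈ Smin ∪ Finset.univ.image qv := Finset.mem_union_left _ hRH.hpSmin
  -- PAR
  have hpar : ∀ v ∈ V, ModularCurve.Period.IsParabolicHom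
      (KQ p (wilesLevel p t Smin Smin) qv) v :=
    Fermat.Agent.S59.TW.H564.isParabolic_of_pkg hRH hpSig PQ
      (fun q hqp hqd => Finset.mem_coe.mp (hNS q hqp hqd))
      (isMid_KQ p (wilesLevel p t Smin Smin) qv) hMN hV
  -- MODQ-RING
  have hh : IsHalf p qv (Fermat.Agent.S59.TW.H564.hhalf p qv) :=
    Fermat.Agent.S59.TW.H564.isHalf_hhalf qv hp hRH.hp2
  obtain ⟨Ψ, hΨ⟩ := Fermat.Agent.S59.TW.H658.exists_heckeAction_isQPart p t Smin qv hRH.hpSmin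
    hRH.hSmin hqi hq2 PQ α hh V hV hpar
  -- GENNIL + LOCACT
  haveI : Fact (CuspForm.HasIntegralStructure
      (wilesLevel p t Smin (Smin ∪ Finset.univ.image qv)) 2) := PQ.integral
  obtain ⟨a, ha⟩ := Fermat.Agent.S59.TW.H564.exists_locAction (θ := PQ.θ)
    (isMid_KQ p (wilesLevel p t Smin Smin) qv) hp hRH.hp2 hRH.hp𝒪 hMN hNS hV
    (fun ℓ hℓ hℓN hℓS c hc => ⟨hℓ, hℓN, hℓS, hc⟩)
    (fun ℓ => uOf (bLevel (wilesLevel p t Smin Smin) qv) ℓ ^
      Fermat.Agent.S59.TW.H564.hhalf p qv)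
    (Fermat.Agent.S59.TW.H564.kexp p qv)
    (fun ℓ x => Fermat.Agent.S59.TW.H564.diamondU_pow_eq p (wilesLevel p t Smin Smin) qv _ x)
    Ψ (fun ℓ _ hℓN hℓS v => hΨ ℓ Fact.out hℓN hℓS v)
  refine ⟨Fermat.Agent.S59.TW.H564.hhalf p qv, a, hh, ?_⟩
  intro ℓ hℓ hℓN hℓS v
  rw [PQ.hπ, ha]
  exact hΨ ℓ hℓ hℓN hℓS v

end Fermat.Agent.S59.TW.Aut.H564
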